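/-
Program E (S14), piece E-S (Stickelberger via Jacobi sums): shared definitions.
Keep this file SMALL and STABLE.
-/
import Mathlib

set_option autoImplicit false

open NumberField IsCyclotomicExtension.Rat Ideal
open scoped Pointwise

namespace Fermat.Agent.Stick

variable (p : ℕ) [hp : Fact p.Prime] (K : Type*) [Field K] [NumberField K]
  [hK : IsCyclotomicExtension {p} ℚ K]

/-- The exponent `t ∈ [1, p - 1]` with `σ ζ = ζ ^ t` for every `p`-th root of unity `ζ`
(see `IsCyclotomicExtension.Rat.galEquivZMod_smul_of_pow_eq`). -/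
noncomputable def expo (σ : Gal(K/ℚ)) : ℕ := (galEquivZMod p K σ).val.val

/-- Interface between the Jacobi-sum computation (ES-1) and the ideal arithmetic (ES-2):
`J = J(χ, χ)` and `J' = J(χ⁻¹, χ⁻¹)` for the `p`-th power residue character `χ` modulo `Q`. -/
def JacobiData (Q : Ideal (𝓞 K)) (ℓ : ℕ) : Prop :=
  ∃ J J' : 𝓞 K, J * J' = (ℓ : 𝓞 K) ∧
    (∀ σ : Gal(K/ℚ), 2 * expo p K σ < p → σ • J ∈ Q) ∧
    (∀ σ : Gal(K/ℚ), p < 2 * expo p K σ → σ • J' ∈ Q)

end Fermat.Agent.Stick
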