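/-
Program E (S14), piece E-S, part ES-2 (helper5): from the Jacobi-sum data to Stickelberger's
relation in the class group of `ℚ(ζ_p)`, and the consumer theorem `stick_kills`.
-/
import Fermat.Agent.Stick.Defs

set_option autoImplicit false
set_option linter.unusedSectionVars false

open NumberField IsCyclotomicExtension.Rat Ideal
open scoped Pointwise

namespace Fermat.Agent.Stick.IdealArith

open Fermat.Agent.Stick

section General

variable {R : Type*} [CommRing R] {G : Type*} [Group G] [MulSemiringAction G R]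

/-- The absolute norm is invariant under ring automorphisms. -/
theorem absNorm_smul [IsDedekindDomain R] [Module.Free ℤ R] [Module.Finite ℤ R] (σ : G)
    (I : Ideal R) : absNorm (σ • I) = absNorm I := by
  rw [Ideal.absNorm_apply, Ideal.absNorm_apply, Submodule.cardQuot_apply, Submodule.cardQuot_apply]
  have e : R ⧸ I ≃+* R ⧸ (σ • I) :=
    Ideal.quotientEquiv I (σ • I) (MulSemiringAction.toRingEquiv G R σ) (by
      rw [Ideal.pointwise_smul_def]
      rfl)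
  exact (Nat.card_congr e.toEquiv).symm

theorem smul_ne_bot (σ : G) {I : Ideal R} (hI : I ≠ ⊥) : σ • I ≠ ⊥ := by
  intro h
  apply hI
  have : σ⁻¹ • (σ • I) = σ⁻¹ • (⊥ : Ideal R) := by rw [h]
  rw [inv_smul_smul] at this
  rw [this]
  exact Ideal.smul_bot _

end General

section Main

variable (p : ℕ) [hp : Fact p.Prime] (K : Type*) [Field K] [NumberField K]
  [hK : IsCyclotomicExtension {p} ℚ K]

/-- Every element of `𝓞 K` is congruent to a rational integer modulo a prime of prime norm. -/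
theorem exists_int_sub_mem (Q : Ideal (𝓞 K)) (ℓ : ℕ) (hℓ : ℓ.Prime) (hQ : absNorm Q = ℓ)
    (x : 𝓞 K) : ∃ n : ℤ, x - (n : 𝓞 K) ∈ Q := by
  have hcard : Nat.card (𝓞 K ⧸ Q) = ℓ := by
    rw [← hQ, Ideal.absNorm_apply, Submodule.cardQuot_apply]
  have hfin : Finite (𝓞 K ⧸ Q) := Nat.finite_of_card_ne_zero (by rw [hcard]; exact hℓ.ne_zero)
  let S : AddSubgroup (𝓞 K ⧸ Q) := (Int.castAddHom (𝓞 K ⧸ Q)).range
  have hdvd : Nat.card S ∣ ℓ := hcard ▸ AddSubgroup.card_addSubgroup_dvd_card S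
  have hne1 : Nat.card S ≠ 1 := by
    intro h1
    have hbot : S = ⊥ := AddSubgroup.card_eq_one.mp h1
    have h1S : (1 : 𝓞 K ⧸ Q) ∈ S := ⟨1, by simp⟩
    rw [hbot, AddSubgroup.mem_bot] at h1S
    have htop : Q = ⊤ := by
      rw [Ideal.eq_top_iff_one, ← Ideal.Quotient.eq_zero_iff_mem]
      exact h1S
    rw [htop, Ideal.absNorm_top] at hQ
    exact hℓ.ne_one hQ.symm
  have hS : Nat.card S = ℓ := (Nat.dvd_prime hℓ).mp hdvd |>.resolve_left hne1
  have htop : S = ⊤ := AddSubgroup.eq_top_of_card_eq S (by rw [hS, hcard])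
  have hx : Ideal.Quotient.mk Q x ∈ S := htop ▸ AddSubgroup.mem_top _
  obtain ⟨n, hn⟩ := hx
  refine ⟨n, ?_⟩
  rw [← Ideal.Quotient.eq_zero_iff_mem, map_sub, map_intCast, ← hn]
  simp

theorem expo_pos (σ : Gal(K/ℚ)) : 0 < expo p K σ := by
  unfold expo
  rw [Nat.pos_iff_ne_zero, Ne, ZMod.val_eq_zero]
  exact (galEquivZMod p K σ).ne_zero

theorem expo_lt (σ : Gal(K/ℚ)) : expo p K σ < p := ZMod.val_lt _

theorem eq_one_of_expo_eq_one (σ : Gal(K/ℚ)) (h : expo p K σ = 1) : σ = 1 := by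
  have h1 : (galEquivZMod p K σ).val = 1 := by
    have hp1 : 1 < p := hp.out.one_lt
    have : Fact (1 < p) := ⟨hp1⟩
    rw [← ZMod.val_one p] at h
    exact ZMod.val_injective p h
  have h2 : galEquivZMod p K σ = 1 := Units.ext h1
  exact (galEquivZMod p K).map_eq_one_iff.mp h2

/-- The decomposition group of a prime of prime norm `ℓ ≠ p` is trivial. -/
theorem eq_one_of_smul_eq (Q : Ideal (𝓞 K)) [hQmax : Q.IsMaximal] (ℓ : ℕ) (hℓ : ℓ.Prime)
    (hℓp : ℓ ≠ p) (hQ : absNorm Q = ℓ) (σ : Gal(K/ℚ)) (h : σ • Q = Q) : σ = 1 := by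
  apply eq_one_of_expo_eq_one p K
  by_contra ht
  have hζ := IsCyclotomicExtension.zeta_spec p ℚ K
  set ζ : 𝓞 K := hζ.toInteger with hζdef
  have hζp : ζ ^ p = 1 := hζ.toInteger_isPrimitiveRoot.pow_eq_one
  set t := expo p K σ with ht_def
  have htpos : 0 < t := expo_pos p K σ
  have htlt : t < p := expo_lt p K σ
  have hσζ : σ • ζ = ζ ^ t := galEquivZMod_smul_of_pow_eq p K σ hζp
  obtain ⟨n, hn⟩ := exists_int_sub_mem K Q ℓ hℓ hQ ζ
  have h1 : σ • (ζ - (n : 𝓞 K)) ∈ Q := by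
    have := Ideal.smul_mem_pointwise_smul σ _ Q hn
    rwa [h] at this
  have hσn : σ • (n : 𝓞 K) = n :=
    map_intCast (MulSemiringAction.toRingHom Gal(K/ℚ) (𝓞 K) σ) n
  rw [smul_sub, hσζ, hσn] at h1
  have h2 : ζ ^ t - ζ ∈ Q := by
    have : ζ ^ t - ζ = (ζ ^ t - (n : 𝓞 K)) - (ζ - (n : 𝓞 K)) := by ring
    rw [this]
    exact Q.sub_mem h1 hn
  have h3 : ζ * (ζ ^ (t - 1) - 1) ∈ Q := by
    have : ζ * (ζ ^ (t - 1) - 1) = ζ ^ t - ζ := by
      have hts : t = (t - 1) + 1 := by omega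
      conv_rhs => rw [hts, pow_succ]
      ring
    rw [this]
    exact h2
  have hζQ : ζ ∉ Q := by
    intro hmem
    have : (1 : 𝓞 K) ∈ Q := by
      rw [← hζp]
      exact Ideal.pow_mem_of_mem Q hmem p hp.out.pos
    exact hQmax.ne_top ((Ideal.eq_top_iff_one Q).mpr this)
  have h4 : ζ ^ (t - 1) - 1 ∈ Q := (hQmax.isPrime.mem_or_mem h3).resolve_left hζQ
  -- `ζ ^ (t - 1)` is a primitive root
  have hcop : (t - 1).Coprime p := by
    rw [Nat.coprime_comm, hp.out.coprime_iff_not_dvd]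
    intro hd
    have := Nat.le_of_dvd (by omega) hd
    omega
  have hη : IsPrimitiveRoot ((IsCyclotomicExtension.zeta p ℚ K) ^ (t - 1)) p :=
    hζ.pow_of_coprime _ hcop
  have hηint : hη.toInteger = ζ ^ (t - 1) := by
    apply Subtype.ext
    change IsCyclotomicExtension.zeta p ℚ K ^ (t - 1) = ((hζ.toInteger ^ (t - 1) : 𝓞 K) : K)
    push_cast
    rfl
  have h5 : (p : 𝓞 K) ∈ Q := by
    have hd : hη.toInteger - 1 ∣ ((p : ℤ) : 𝓞 K) :=
      (zeta_sub_one_dvd_intCast_iff' p hη).mpr dvd_rfl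
    rw [hηint] at hd
    obtain ⟨c, hc⟩ := hd
    have : (p : 𝓞 K) = (ζ ^ (t - 1) - 1) * c := by
      rw [← hc]
      simp
    rw [this]
    exact Q.mul_mem_right _ h4
  have h6 : (ℓ : 𝓞 K) ∈ Q := hQ ▸ Ideal.absNorm_mem Q
  have hcop2 : IsCoprime (ℓ : ℤ) (p : ℤ) := by
    rw [Int.isCoprime_iff_gcd_eq_one, Int.gcd_natCast_natCast]
    exact (Nat.coprime_primes hℓ hp.out).mpr hℓp
  obtain ⟨a, b, hab⟩ := hcop2
  have h7 : (1 : 𝓞 K) ∈ Q := by
    have : (1 : 𝓞 K) = (a : 𝓞 K) * (ℓ : 𝓞 K) + (b : 𝓞 K) * (p : 𝓞 K) := by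
      have := congrArg (fun z : ℤ => (z : 𝓞 K)) hab
      simp only [Int.cast_add, Int.cast_mul, Int.cast_natCast, Int.cast_one] at this
      exact this.symm
    rw [this]
    exact Q.add_mem (Q.mul_mem_left _ h6) (Q.mul_mem_left _ h5)
  exact hQmax.ne_top ((Ideal.eq_top_iff_one Q).mpr h7)

theorem ne_bot_of_absNorm (Q : Ideal (𝓞 K)) (ℓ : ℕ) (hℓ : ℓ.Prime) (hQ : absNorm Q = ℓ) :
    Q ≠ ⊥ := by
  rintro rfl
  rw [Ideal.absNorm_bot] at hQ
  exact hℓ.ne_zero hQ.symm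

theorem absNorm_span_natCast (ℓ : ℕ) :
    absNorm (Ideal.span {(ℓ : 𝓞 K)}) = ℓ ^ Module.finrank ℚ K := by
  rw [Ideal.absNorm_span_singleton]
  have h1 : (ℓ : 𝓞 K) = algebraMap ℤ (𝓞 K) (ℓ : ℤ) := by simp
  rw [h1, Algebra.norm_algebraMap_of_basis (RingOfIntegers.basis K), Int.natAbs_pow,
    Int.natAbs_natCast, ← Module.finrank_eq_card_basis (RingOfIntegers.basis K),
    RingOfIntegers.rank]

/-- **Stickelberger's relation** for a prime `Q` of prime norm `ℓ ≠ p`, from the Jacobi sum data: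
the product of the conjugates `σ_t⁻¹ Q`, `1 ≤ t < p / 2`, is principal. -/
theorem principal_of_jacobiData (hp2 : p ≠ 2) (Q : Ideal (𝓞 K)) [hQmax : Q.IsMaximal] (ℓ : ℕ)
    (hℓ : ℓ.Prime) (hℓp : ℓ ≠ p) (hQ : absNorm Q = ℓ) (h : JacobiData p K Q ℓ) :
    ∃ J : 𝓞 K, Ideal.span {J} =
      ∏ σ ∈ (Finset.univ : Finset Gal(K/ℚ)).filter (fun σ => 2 * expo p K σ < p), (σ⁻¹ • Q) := by
  classical
  obtain ⟨J, J', hJJ', hJ, hJ'⟩ := h
  refine ⟨J, ?_⟩
  have hgal : IsGalois ℚ K := IsCyclotomicExtension.isGalois {p} ℚ K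
  have hQ0 : Q ≠ ⊥ := ne_bot_of_absNorm K Q ℓ hℓ hQ
  set S := (Finset.univ : Finset Gal(K/ℚ)).filter (fun σ => 2 * expo p K σ < p) with hS
  set S' := (Finset.univ : Finset Gal(K/ℚ)).filter (fun σ => p < 2 * expo p K σ) with hS'
  let P : Gal(K/ℚ) → Ideal (𝓞 K) := fun σ => σ⁻¹ • Q
  have hPmax : ∀ σ, (P σ).IsMaximal := fun σ =>
    Ideal.IsPrime.isMaximal (Ideal.IsPrime.smul σ⁻¹) (smul_ne_bot σ⁻¹ hQ0)
  have hPinj : Function.Injective P := by
    intro σ τ hστ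
    have h1 : (τ * σ⁻¹) • Q = Q := by
      rw [mul_smul]
      change τ • P σ = Q
      rw [hστ]
      exact smul_inv_smul τ Q
    have h2 := eq_one_of_smul_eq p K Q ℓ hℓ hℓp hQ _ h1
    exact (mul_inv_eq_one.mp h2).symm
  have hcop : ∀ σ τ, σ ≠ τ → IsCoprime (P σ) (P τ) := by
    intro σ τ hne
    rw [Ideal.isCoprime_iff_sup_eq]
    exact Ideal.IsMaximal.coprime_of_ne (hPmax σ) (hPmax τ) (fun h => hne (hPinj h))
  -- divisibility
  have hdvdJ : ∏ σ ∈ S, P σ ∣ Ideal.span {J} := by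
    refine Finset.prod_dvd_of_coprime (fun σ _ τ _ hne => hcop σ τ hne) fun σ hσ => ?_
    rw [Ideal.dvd_iff_le, Ideal.span_singleton_le_iff_mem]
    exact Ideal.mem_inv_pointwise_smul_iff.mpr (hJ σ (Finset.mem_filter.mp hσ).2)
  have hdvdJ' : ∏ σ ∈ S', P σ ∣ Ideal.span {J'} := by
    refine Finset.prod_dvd_of_coprime (fun σ _ τ _ hne => hcop σ τ hne) fun σ hσ => ?_
    rw [Ideal.dvd_iff_le, Ideal.span_singleton_le_iff_mem]
    exact Ideal.mem_inv_pointwise_smul_iff.mpr (hJ' σ (Finset.mem_filter.mp hσ).2)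
  obtain ⟨X, hX⟩ := hdvdJ
  obtain ⟨Y, hY⟩ := hdvdJ'
  -- norms
  have hnormP : ∀ T : Finset Gal(K/ℚ), absNorm (∏ σ ∈ T, P σ) = ℓ ^ T.card := by
    intro T
    rw [map_prod, Finset.prod_congr rfl (fun σ _ => (absNorm_smul σ⁻¹ Q).trans hQ),
      Finset.prod_const]
  have hcard : S.card + S'.card = Module.finrank ℚ K := by
    rw [← IsGalois.card_aut_eq_finrank ℚ K, Nat.card_eq_fintype_card, ← Finset.card_univ,
      ← Finset.card_union_of_disjoint]
    · congr 1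
      ext σ
      simp only [hS, hS', Finset.mem_union, Finset.mem_filter, Finset.mem_univ, true_and, iff_true]
      rcases lt_trichotomy (2 * expo p K σ) p with h | h | h
      · exact Or.inl h
      · exfalso
        have h2 : 2 ∣ p := ⟨_, h.symm⟩
        exact hp2 ((Nat.prime_dvd_prime_iff_eq Nat.prime_two hp.out).mp h2).symm
      · exact Or.inr h
    · rw [Finset.disjoint_filter]
      intro σ _ h1 h2
      omega
  have hprod : Ideal.span {J} * Ideal.span {J'} = Ideal.span {(ℓ : 𝓞 K)} := by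
    rw [Ideal.span_singleton_mul_span_singleton, hJJ']
  have hnorm := congrArg absNorm hprod
  rw [hX, hY, map_mul, map_mul, map_mul, hnormP, hnormP, absNorm_span_natCast, ← hcard,
    pow_add] at hnorm
  have hℓpos : 0 < ℓ := hℓ.pos
  have hXY : absNorm X * absNorm Y = 1 := by
    have h1 : ℓ ^ S.card * ℓ ^ S'.card * (absNorm X * absNorm Y) = ℓ ^ S.card * ℓ ^ S'.card * 1 := by
      rw [mul_one]
      conv_rhs => rw [← hnorm]
      ring
    exact Nat.eq_of_mul_eq_mul_left (by positivity) h1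
  have hX1 : absNorm X = 1 := Nat.eq_one_of_mul_eq_one_right hXY
  rw [hX, Ideal.absNorm_eq_one_iff.mp hX1, Ideal.mul_top]

theorem expo_injective : Function.Injective (expo p K) := by
  intro σ τ h
  have h1 : (galEquivZMod p K σ).val = (galEquivZMod p K τ).val := ZMod.val_injective p h
  exact (galEquivZMod p K).injective (Units.ext h1)

theorem exists_expo_eq (t : ℕ) (ht : 0 < t) (htp : t < p) : ∃ σ : Gal(K/ℚ), expo p K σ = t := by
  have hcop : t.Coprime p := by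
    rw [Nat.coprime_comm, hp.out.coprime_iff_not_dvd]
    intro hd
    have := Nat.le_of_dvd ht hd
    omega
  refine ⟨(galEquivZMod p K).symm (ZMod.unitOfCoprime t hcop), ?_⟩
  unfold expo
  rw [MulEquiv.apply_symm_apply, ZMod.coe_unitOfCoprime, ZMod.val_natCast, Nat.mod_eq_of_lt htp]

/-- `∑_{σ : 2 expo σ < p} expo σ = ∑_{1 ≤ t ≤ (p-1)/2} t`. -/
theorem sum_expo (hp2 : p ≠ 2) :
    (∑ σ ∈ (Finset.univ : Finset Gal(K/ℚ)).filter (fun σ => 2 * expo p K σ < p), expo p K σ) * 2 =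
      ((p - 1) / 2 + 1) * ((p - 1) / 2) := by
  classical
  have hodd : p % 2 = 1 := by
    rcases hp.out.eq_two_or_odd with h | h
    · exact absurd h hp2
    · exact h
  set m := (p - 1) / 2 with hm
  have hpm : p = 2 * m + 1 := by omega
  have hgauss := Finset.sum_range_id_mul_two (m + 1)
  rw [add_tsub_cancel_right] at hgauss
  rw [← hgauss]
  congr 1
  rw [← Finset.sum_image (f := fun t => t) (g := expo p K)
    (fun σ _ τ _ h => expo_injective p K h)]
  refine Finset.sum_subset ?_ ?_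
  · intro t ht
    obtain ⟨σ, hσ, rfl⟩ := Finset.mem_image.mp ht
    rw [Finset.mem_filter] at hσ
    rw [Finset.mem_range]
    omega
  · intro t ht hnt
    rw [Finset.mem_range] at ht
    by_contra h0
    apply hnt
    obtain ⟨σ, hσ⟩ := exists_expo_eq p K t (Nat.pos_of_ne_zero h0) (by omega)
    exact Finset.mem_image.mpr ⟨σ, Finset.mem_filter.mpr ⟨Finset.mem_univ _, by omega⟩, hσ⟩

/-- A function on ideals, additive on products of nonzero ideals and zero on `⊤`, is additive on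
finite products. -/
theorem map_prod_of_mul {M : Type*} [AddCommGroup M] (φ : Ideal (𝓞 K) → M)
    (hmul : ∀ I J : Ideal (𝓞 K), I ≠ ⊥ → J ≠ ⊥ → φ (I * J) = φ I + φ J) (htop : φ ⊤ = 0)
    {ι : Type*} (T : Finset ι) (f : ι → Ideal (𝓞 K)) (hf : ∀ i ∈ T, f i ≠ ⊥) :
    φ (∏ i ∈ T, f i) = ∑ i ∈ T, φ (f i) := by
  classical
  induction T using Finset.induction_on with
  | empty => simpa using htop
  | insert a T ha ih =>
    rw [Finset.prod_insert ha, Finset.sum_insert ha]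
    have h1 : f a ≠ ⊥ := hf a (Finset.mem_insert_self a T)
    have h2 : ∀ i ∈ T, f i ≠ ⊥ := fun i hi => hf i (Finset.mem_insert_of_mem hi)
    have h3 : ∏ i ∈ T, f i ≠ ⊥ := by
      rw [← Ideal.zero_eq_bot, Finset.prod_ne_zero_iff]
      intro i hi
      rw [Ideal.zero_eq_bot]
      exact h2 i hi
    rw [hmul _ _ h1 h3, ih h2]

/-- **Consumer form of Stickelberger's relation.**  A map `φ` from ideals of `𝓞 K`, `K = ℚ(ζ_p)`,
to a `ZMod p`-module which is additive on products, trivial on principal ideals, and equivariant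
for the INVERSE cyclotomic character, kills every prime ideal of prime norm `ℓ ≠ p`. -/
theorem stick_kills (hp2 : p ≠ 2) {M : Type*} [AddCommGroup M] [Module (ZMod p) M]
    (φ : Ideal (𝓞 K) → M)
    (hmul : ∀ I J : Ideal (𝓞 K), I ≠ ⊥ → J ≠ ⊥ → φ (I * J) = φ I + φ J)
    (hprinc : ∀ x : 𝓞 K, x ≠ 0 → φ (Ideal.span {x}) = 0)
    (hequiv : ∀ (σ : Gal(K/ℚ)) (I : Ideal (𝓞 K)), I ≠ ⊥ →
      φ (σ • I) = (((galEquivZMod p K σ)⁻¹ : (ZMod p)ˣ) : ZMod p) • φ I)
    (Q : Ideal (𝓞 K)) [hQmax : Q.IsMaximal] (ℓ : ℕ) (hℓ : ℓ.Prime) (hℓp : ℓ ≠ p)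
    (hQ : absNorm Q = ℓ) (h : JacobiData p K Q ℓ) : φ Q = 0 := by
  classical
  have hQ0 : Q ≠ ⊥ := ne_bot_of_absNorm K Q ℓ hℓ hQ
  obtain ⟨J, hJ⟩ := principal_of_jacobiData p K hp2 Q ℓ hℓ hℓp hQ h
  have htop : φ ⊤ = 0 := by
    have := hprinc 1 one_ne_zero
    rwa [Ideal.span_singleton_one] at this
  have hne : ∀ σ ∈ (Finset.univ : Finset Gal(K/ℚ)).filter (fun σ => 2 * expo p K σ < p),
      σ⁻¹ • Q ≠ ⊥ := fun σ _ => smul_ne_bot σ⁻¹ hQ0
  have hJ0 : J ≠ 0 := by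
    intro h0
    have h1 : (∏ σ ∈ (Finset.univ : Finset Gal(K/ℚ)).filter (fun σ => 2 * expo p K σ < p),
        σ⁻¹ • Q) = ⊥ := by
      rw [← hJ, h0]
      simp
    rw [← Ideal.zero_eq_bot, Finset.prod_eq_zero_iff] at h1
    obtain ⟨σ, hσ, h2⟩ := h1
    exact hne σ hσ h2
  have h1 := hprinc J hJ0
  rw [hJ, map_prod_of_mul K φ hmul htop _ _ hne] at h1
  have h2 : ∀ σ : Gal(K/ℚ), φ (σ⁻¹ • Q) = ((expo p K σ : ℕ) : ZMod p) • φ Q := by
    intro σ
    rw [hequiv σ⁻¹ Q hQ0, map_inv, inv_inv]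
    congr 1
    unfold expo
    rw [ZMod.natCast_zmod_val]
  rw [Finset.sum_congr rfl (fun σ _ => h2 σ), ← Finset.sum_smul, ← Nat.cast_sum] at h1
  -- the scalar is a unit of `ZMod p`
  set s := ∑ σ ∈ (Finset.univ : Finset Gal(K/ℚ)).filter (fun σ => 2 * expo p K σ < p),
    expo p K σ with hs
  have hsum := sum_expo p K hp2
  rw [← hs] at hsum
  have hodd : p % 2 = 1 := by
    rcases hp.out.eq_two_or_odd with h | h
    · exact absurd h hp2
    · exact h
  have hunit : ((s : ℕ) : ZMod p) ≠ 0 := by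
    intro h0
    have h8 : ((s * 2 * 4 : ℕ) : ZMod p) = 0 := by
      push_cast
      rw [h0]
      ring
    rw [hsum, ZMod.natCast_eq_zero_iff] at h8
    -- `4 * (m + 1) * m = (p + 1) * (p - 1) = p ^ 2 - 1`
    have hpm : p = 2 * ((p - 1) / 2) + 1 := by omega
    set m := (p - 1) / 2 with hm
    have h9 : (m + 1) * m * 4 + 1 = p * p := by
      conv_rhs => rw [hpm]
      ring
    have h10 : p ∣ (m + 1) * m * 4 + 1 := by
      rw [h9]
      exact dvd_mul_right p p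
    have h11 : p ∣ 1 := (Nat.dvd_add_right h8).mp h10
    exact hp.out.one_lt.ne' (Nat.dvd_one.mp h11)
  have hfield : Fact p.Prime := hp
  have hinv : ((s : ℕ) : ZMod p)⁻¹ * ((s : ℕ) : ZMod p) = 1 := inv_mul_cancel₀ hunit
  calc φ Q = (1 : ZMod p) • φ Q := (one_smul _ _).symm
    _ = (((s : ℕ) : ZMod p)⁻¹ * ((s : ℕ) : ZMod p)) • φ Q := by rw [hinv]
    _ = ((s : ℕ) : ZMod p)⁻¹ • (((s : ℕ) : ZMod p) • φ Q) := mul_smul _ _ _
    _ = 0 := by rw [h1, smul_zero]

end Main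

end Fermat.Agent.Stick.IdealArith
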