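/-
Program E (S14), E-S (Stickelberger for Jacobi sums), parts (S1)+(S2) (helper1).

* `sum_pow_mul_one_sub_pow_eq_zero` : `∑_{x ∈ F} x^a (1-x)^b = 0` for `a + b < #F - 1`.
* `resChar 𝔮 hζ hp𝔮 hdvd : MulChar (R ⧸ 𝔮) R` : the `p`-th power residue character modulo a maximal
  ideal `𝔮` with finite residue field, `χ x ≡ x ^ ((#(R/𝔮) - 1)/p) mod 𝔮`, of order `p`.
* `jacobiSum_resChar_pow_mem` : `J(χ^t, χ^t) ∈ 𝔮` for `0 < t < p/2`.
* `ringHomComp_eq_pow` : `σ ∘ χ = χ ^ t` if `σ ζ = ζ ^ t`.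
* `norm_jacobiSum_sq` : `N(J(χ,χ))² = #F ^ (p-1)` in a cyclotomic field `ℚ(ζ_p)`.
* `exists_jacobi_element` : the packaged statement for a prime `𝔮 ∌ p` of `𝓞 ℚ(ζ_p)`.
-/
import Mathlib

set_option autoImplicit false
set_option linter.unusedSectionVars false
set_option linter.style.haveILetI false

open Finset NumberField

namespace Fermat.Agent.Stick.JacobiCong


section FiniteField

variable {F : Type*} [Field F] [Fintype F]

/-- `∑_{x ∈ F} x^a (1-x)^b = 0` when `a + b < #F - 1`. -/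
theorem sum_pow_mul_one_sub_pow_eq_zero (a b : ℕ) (h : a + b < Fintype.card F - 1) :
    ∑ x : F, x ^ a * (1 - x) ^ b = 0 := by
  have h1 : ∀ x : F, x ^ a * (1 - x) ^ b =
      ∑ i ∈ range (b + 1), ((-1 : F) ^ i * (b.choose i : F)) * x ^ (a + i) := by
    intro x
    rw [sub_eq_add_neg, add_comm, add_pow, mul_sum]
    refine sum_congr rfl fun i _ => ?_
    rw [one_pow, mul_one, neg_pow, pow_add]
    ring
  simp_rw [h1]
  rw [sum_comm]
  refine sum_eq_zero fun i hi => ?_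
  rw [← mul_sum, FiniteField.sum_pow_lt_card_sub_one, mul_zero]
  have := mem_range.mp hi
  omega

end FiniteField

section Residue

variable {R : Type*} [CommRing R] [IsDomain R] (𝔮 : Ideal R) [h𝔮 : 𝔮.IsMaximal]
  {p : ℕ} [hp : Fact p.Prime]

/-- reduction of `p`-th roots of unity modulo `𝔮`. -/
noncomputable def red : rootsOfUnity p R →* rootsOfUnity p (R ⧸ 𝔮) :=
  restrictRootsOfUnity (Ideal.Quotient.mk 𝔮) p

lemma red_coe (u : rootsOfUnity p R) :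
    (((red 𝔮 u : rootsOfUnity p (R ⧸ 𝔮)) : (R ⧸ 𝔮)ˣ) : R ⧸ 𝔮) = Ideal.Quotient.mk 𝔮 ((u : Rˣ) : R) :=
  restrictRootsOfUnity_coe_apply _ _

lemma red_injective (hp𝔮 : (p : R) ∉ 𝔮) : Function.Injective (red (p := p) 𝔮) := by
  rw [injective_iff_map_eq_one]
  intro u hu
  by_contra hne
  -- `u` is a primitive `p`-th root of unity
  have hu1 : ((u : Rˣ) : R) ≠ 1 := by
    intro h
    apply hne
    ext
    simpa using h
  have hup : ((u : Rˣ) : R) ^ p = 1 := by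
    have := u.2
    rw [mem_rootsOfUnity] at this
    have h2 := congrArg (fun z : Rˣ => (z : R)) this
    simpa using h2
  have hprim : IsPrimitiveRoot ((u : Rˣ) : R) p := by
    have h3 : orderOf ((u : Rˣ) : R) = p := orderOf_eq_prime hup hu1
    have h5 := IsPrimitiveRoot.orderOf ((u : Rˣ) : R)
    rwa [h3] at h5
  have hsum := hprim.geom_sum_eq_zero hp.out.one_lt
  have hmk : Ideal.Quotient.mk 𝔮 ((u : Rˣ) : R) = 1 := by
    rw [← red_coe, hu]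
    rfl
  have h4 := congrArg (Ideal.Quotient.mk 𝔮) hsum
  rw [map_sum, map_zero] at h4
  simp only [map_pow, hmk, one_pow, sum_const, card_range, nsmul_eq_mul, mul_one] at h4
  apply hp𝔮
  rw [← Ideal.Quotient.eq_zero_iff_mem, map_natCast]
  exact h4

variable [Fintype (R ⧸ 𝔮)]

noncomputable local instance : Field (R ⧸ 𝔮) := Ideal.Quotient.field 𝔮

/-- the exponent `m = (#(R/𝔮) - 1) / p`. -/
def mexp (p : ℕ) : ℕ := (Fintype.card (R ⧸ 𝔮) - 1) / p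

lemma mexp_mul (hdvd : p ∣ Fintype.card (R ⧸ 𝔮) - 1) :
    mexp 𝔮 p * p = Fintype.card (R ⧸ 𝔮) - 1 :=
  Nat.div_mul_cancel hdvd

lemma card_sub_one_pos : 0 < Fintype.card (R ⧸ 𝔮) - 1 := by
  have := Fintype.one_lt_card (α := R ⧸ 𝔮)
  omega

lemma mexp_pos (hdvd : p ∣ Fintype.card (R ⧸ 𝔮) - 1) : 0 < mexp 𝔮 p := by
  have h := mexp_mul 𝔮 hdvd
  have h2 := card_sub_one_pos 𝔮
  rcases Nat.eq_zero_or_pos (mexp 𝔮 p) with h0 | h0
  · rw [h0, zero_mul] at h; omega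
  · exact h0

/-- `x ↦ x ^ m` as a map from units of the residue field to `p`-th roots of unity. -/
noncomputable def pw (hdvd : p ∣ Fintype.card (R ⧸ 𝔮) - 1) :
    (R ⧸ 𝔮)ˣ →* rootsOfUnity p (R ⧸ 𝔮) :=
  (powMonoidHom (mexp 𝔮 p) : (R ⧸ 𝔮)ˣ →* (R ⧸ 𝔮)ˣ).codRestrict (rootsOfUnity p (R ⧸ 𝔮))
    (fun a => by
      classical
      rw [mem_rootsOfUnity, powMonoidHom_apply, ← pow_mul, mexp_mul 𝔮 hdvd,
        ← Fintype.card_units]
      exact pow_card_eq_one)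

lemma red_bijective {ζ : R} (hζ : IsPrimitiveRoot ζ p) (hp𝔮 : (p : R) ∉ 𝔮) :
    Function.Bijective (red (p := p) 𝔮) := by
  haveI : NeZero p := ⟨hp.out.ne_zero⟩
  have hinj := red_injective 𝔮 hp𝔮
  have h1 : Nat.card (rootsOfUnity p R) = p := hζ.card_rootsOfUnity
  have h2 : Nat.card (rootsOfUnity p (R ⧸ 𝔮)) ≤ p := card_rootsOfUnity _ _
  haveI : Finite (R ⧸ 𝔮)ˣ := inferInstance
  haveI : Finite (rootsOfUnity p (R ⧸ 𝔮)) := inferInstance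
  exact hinj.bijective_of_nat_card_le (by rw [h1]; exact h2)

/-- the inverse of the reduction on `p`-th roots of unity ("Teichmüller lift"). -/
noncomputable def lift {ζ : R} (hζ : IsPrimitiveRoot ζ p) (hp𝔮 : (p : R) ∉ 𝔮) :
    rootsOfUnity p (R ⧸ 𝔮) ≃* rootsOfUnity p R :=
  (MulEquiv.ofBijective (red (p := p) 𝔮) (red_bijective 𝔮 hζ hp𝔮)).symm

lemma red_lift {ζ : R} (hζ : IsPrimitiveRoot ζ p) (hp𝔮 : (p : R) ∉ 𝔮)
    (u : rootsOfUnity p (R ⧸ 𝔮)) : red 𝔮 (lift 𝔮 hζ hp𝔮 u) = u :=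
  (MulEquiv.ofBijective (red (p := p) 𝔮) (red_bijective 𝔮 hζ hp𝔮)).apply_symm_apply u

/-- the `p`-th power residue character modulo `𝔮`, as a homomorphism on units. -/
noncomputable def resHom {ζ : R} (hζ : IsPrimitiveRoot ζ p) (hp𝔮 : (p : R) ∉ 𝔮)
    (hdvd : p ∣ Fintype.card (R ⧸ 𝔮) - 1) : (R ⧸ 𝔮)ˣ →* Rˣ :=
  (rootsOfUnity p R).subtype.comp ((lift 𝔮 hζ hp𝔮).toMonoidHom.comp (pw 𝔮 hdvd))

/-- the `p`-th power residue character modulo `𝔮`: `χ x ≡ x ^ ((#(R/𝔮) - 1)/p) mod 𝔮`. -/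
noncomputable def resChar {ζ : R} (hζ : IsPrimitiveRoot ζ p) (hp𝔮 : (p : R) ∉ 𝔮)
    (hdvd : p ∣ Fintype.card (R ⧸ 𝔮) - 1) : MulChar (R ⧸ 𝔮) R :=
  MulChar.ofUnitHom (resHom 𝔮 hζ hp𝔮 hdvd)

variable {ζ : R} (hζ : IsPrimitiveRoot ζ p) (hp𝔮 : (p : R) ∉ 𝔮)
  (hdvd : p ∣ Fintype.card (R ⧸ 𝔮) - 1)

lemma mk_resChar_unit (a : (R ⧸ 𝔮)ˣ) :
    Ideal.Quotient.mk 𝔮 (resChar 𝔮 hζ hp𝔮 hdvd a) = (a : R ⧸ 𝔮) ^ mexp 𝔮 p := by
  rw [resChar, MulChar.ofUnitHom_coe]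
  show Ideal.Quotient.mk 𝔮 (((lift 𝔮 hζ hp𝔮 (pw 𝔮 hdvd a) : rootsOfUnity p R) : Rˣ) : R) = _
  rw [← red_coe, red_lift]
  rfl

/-- the defining congruence of the power residue character. -/
theorem mk_resChar (x : R ⧸ 𝔮) :
    Ideal.Quotient.mk 𝔮 (resChar 𝔮 hζ hp𝔮 hdvd x) = x ^ mexp 𝔮 p := by
  by_cases hx : IsUnit x
  · obtain ⟨a, rfl⟩ := hx
    exact mk_resChar_unit 𝔮 hζ hp𝔮 hdvd a
  · rw [MulChar.map_nonunit _ hx, map_zero]
    have hx0 : x = 0 := by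
      by_contra h
      exact hx (isUnit_iff_ne_zero.mpr h)
    rw [hx0, zero_pow (mexp_pos 𝔮 hdvd).ne']

theorem resChar_pow_eq_one : resChar 𝔮 hζ hp𝔮 hdvd ^ p = 1 := by
  ext a
  rw [MulChar.pow_apply_coe, MulChar.one_apply_coe, resChar, MulChar.ofUnitHom_coe]
  show (((lift 𝔮 hζ hp𝔮 (pw 𝔮 hdvd a) : rootsOfUnity p R) : Rˣ) : R) ^ p = 1
  have h := (lift 𝔮 hζ hp𝔮 (pw 𝔮 hdvd a)).2
  rw [mem_rootsOfUnity] at h
  have h2 := congrArg (fun z : Rˣ => (z : R)) h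
  simpa using h2

theorem resChar_ne_one : resChar 𝔮 hζ hp𝔮 hdvd ≠ 1 := by
  classical
  intro h
  -- a generator of the cyclic group of units
  obtain ⟨g, hg⟩ := IsCyclic.exists_generator (α := (R ⧸ 𝔮)ˣ)
  have hord : orderOf g = Fintype.card (R ⧸ 𝔮) - 1 := by
    rw [orderOf_eq_card_of_forall_mem_zpowers hg, Nat.card_eq_fintype_card, Fintype.card_units]
  have h1 := mk_resChar_unit 𝔮 hζ hp𝔮 hdvd g
  rw [h, MulChar.one_apply_coe, map_one] at h1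
  have hm := mexp_pos 𝔮 hdvd
  have hlt : mexp 𝔮 p < orderOf g := by
    rw [hord, ← mexp_mul 𝔮 hdvd]
    have := hp.out.one_lt
    nlinarith
  have h2 := pow_ne_one_of_lt_orderOf hm.ne' hlt
  apply h2
  ext
  rw [Units.val_pow_eq_pow_val, ← h1, Units.val_one]

theorem orderOf_resChar : orderOf (resChar 𝔮 hζ hp𝔮 hdvd) = p :=
  orderOf_eq_prime (resChar_pow_eq_one 𝔮 hζ hp𝔮 hdvd) (resChar_ne_one 𝔮 hζ hp𝔮 hdvd)

/-- **Stickelberger congruence**: for `0 < t < p/2` the Jacobi sum `J(χ^t, χ^t)` lies in `𝔮`. -/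
theorem jacobiSum_resChar_pow_mem {t : ℕ} (ht0 : 0 < t) (ht : 2 * t < p) :
    jacobiSum (resChar 𝔮 hζ hp𝔮 hdvd ^ t) (resChar 𝔮 hζ hp𝔮 hdvd ^ t) ∈ 𝔮 := by
  rw [← Ideal.Quotient.eq_zero_iff_mem, jacobiSum, map_sum]
  have h1 : ∀ x : R ⧸ 𝔮, Ideal.Quotient.mk 𝔮 ((resChar 𝔮 hζ hp𝔮 hdvd ^ t) x *
      (resChar 𝔮 hζ hp𝔮 hdvd ^ t) (1 - x)) = x ^ (mexp 𝔮 p * t) * (1 - x) ^ (mexp 𝔮 p * t) := by
    intro x
    rw [map_mul, MulChar.pow_apply' _ ht0.ne', MulChar.pow_apply' _ ht0.ne', map_pow, map_pow,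
      mk_resChar, mk_resChar, ← pow_mul, ← pow_mul]
  simp_rw [h1]
  apply sum_pow_mul_one_sub_pow_eq_zero
  rw [← mexp_mul 𝔮 hdvd]
  have hm := mexp_pos 𝔮 hdvd
  nlinarith

end Residue



section Cyclo

variable {p : ℕ} [hp : Fact p.Prime] {K : Type*} [Field K] [NumberField K]
  [IsCyclotomicExtension {p} ℚ K]
  {F : Type*} [Field F] [Fintype F]

/-- Galois twist of a character of order dividing `p`: if `σ ζ = ζ ^ t` then `σ ∘ χ = χ ^ t`. -/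
theorem ringHomComp_eq_pow {ζ : K} (hζ : IsPrimitiveRoot ζ p) (χ : MulChar F K) (hχ : χ ^ p = 1)
    (σ : K ≃ₐ[ℚ] K) (t : ℕ) (hσ : σ ζ = ζ ^ t) :
    χ.ringHomComp (σ : K →+* K) = χ ^ t := by
  haveI : NeZero p := ⟨hp.out.ne_zero⟩
  ext a
  rw [MulChar.ringHomComp_apply, MulChar.pow_apply_coe]
  have h1 : (χ a) ^ p = 1 := by
    rw [← MulChar.pow_apply_coe, hχ, MulChar.one_apply_coe]
  obtain ⟨i, -, hi⟩ := hζ.eq_pow_of_pow_eq_one h1
  rw [← hi]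
  show σ (ζ ^ i) = _
  rw [map_pow, hσ, ← pow_mul, ← pow_mul, mul_comm]

/-- there is an automorphism inverting the `p`-th roots of unity ("complex conjugation"). -/
theorem exists_aut_inv : ∃ (ζ : K) (_ : IsPrimitiveRoot ζ p) (τ : K ≃ₐ[ℚ] K), τ ζ = ζ ^ (p - 1) := by
  haveI : NeZero p := ⟨hp.out.ne_zero⟩
  have hirr : Irreducible (Polynomial.cyclotomic p ℚ) :=
    Polynomial.cyclotomic.irreducible_rat hp.out.pos
  refine ⟨IsCyclotomicExtension.zeta p ℚ K, IsCyclotomicExtension.zeta_spec p ℚ K,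
    (IsCyclotomicExtension.autEquivPow K hirr).symm (-1), ?_⟩
  have h1 : IsCyclotomicExtension.autEquivPow K hirr
      ((IsCyclotomicExtension.autEquivPow K hirr).symm (-1)) = -1 :=
    MulEquiv.apply_symm_apply _ _
  rw [IsCyclotomicExtension.autEquivPow_apply] at h1
  have h2 := IsPrimitiveRoot.autToPow_spec ℚ (IsCyclotomicExtension.zeta_spec p ℚ K)
    ((IsCyclotomicExtension.autEquivPow K hirr).symm (-1))
  rw [← h2]
  congr 1
  have h3 : ((IsPrimitiveRoot.autToPow ℚ (IsCyclotomicExtension.zeta_spec p ℚ K))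
      ((IsCyclotomicExtension.autEquivPow K hirr).symm (-1)) : (ZMod p)ˣ) = -1 := h1
  rw [h3, Units.val_neg, Units.val_one]
  obtain ⟨n, rfl⟩ : ∃ n, p = n + 1 := ⟨p - 1, by have := hp.out.pos; omega⟩
  rw [ZMod.val_neg_one]
  rfl

/-- the square of the norm of the Jacobi sum `J(χ, χ)`, `χ` of odd prime order `p`. -/
theorem norm_jacobiSum_sq (hp2 : p ≠ 2) (χ : MulChar F K) (hχ : orderOf χ = p) :
    (Algebra.norm ℚ (jacobiSum χ χ)) ^ 2 = (Fintype.card F : ℚ) ^ (p - 1) := by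
  classical
  haveI : NeZero p := ⟨hp.out.ne_zero⟩
  obtain ⟨ζ, hζ, τ, hτ⟩ := exists_aut_inv (p := p) (K := K)
  have hχp : χ ^ p = 1 := by rw [← hχ]; exact pow_orderOf_eq_one χ
  have hinv : χ ^ (p - 1) = χ⁻¹ := by
    rw [eq_inv_iff_mul_eq_one, ← pow_succ, Nat.sub_add_cancel hp.out.pos, hχp]
  have h1 : τ (jacobiSum χ χ) = jacobiSum χ⁻¹ χ⁻¹ := by
    have := jacobiSum_ringHomComp χ χ (τ : K →+* K)
    rw [ringHomComp_eq_pow hζ χ hχp τ (p - 1) hτ, hinv] at this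
    exact this.symm
  have hχ1 : χ ≠ 1 := by
    intro h
    rw [h, orderOf_one] at hχ
    exact hp.out.one_lt.ne hχ
  have hχ2 : χ * χ ≠ 1 := by
    intro h
    rw [← pow_two, ← orderOf_dvd_iff_pow_eq_one, hχ] at h
    exact hp2 ((Nat.prime_dvd_prime_iff_eq hp.out Nat.prime_two).mp h)
  have h2 : jacobiSum χ χ * jacobiSum χ⁻¹ χ⁻¹ = Fintype.card F := by
    apply jacobiSum_mul_jacobiSum_inv _ hχ1 hχ1 hχ2
    rw [ringChar.eq_zero]
    exact (CharP.ringChar_ne_zero_of_finite F).symm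
  have h3 : Algebra.norm ℚ (τ (jacobiSum χ χ)) = Algebra.norm ℚ (jacobiSum χ χ) :=
    Algebra.norm_eq_of_algEquiv τ _
  have hirr : Irreducible (Polynomial.cyclotomic p ℚ) :=
    Polynomial.cyclotomic.irreducible_rat hp.out.pos
  have hfin : Module.finrank ℚ K = p - 1 := by
    rw [IsCyclotomicExtension.finrank K hirr, Nat.totient_prime hp.out]
  calc (Algebra.norm ℚ (jacobiSum χ χ)) ^ 2
      = Algebra.norm ℚ (jacobiSum χ χ) * Algebra.norm ℚ (τ (jacobiSum χ χ)) := by rw [h3, pow_two]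
    _ = Algebra.norm ℚ (jacobiSum χ χ * jacobiSum χ⁻¹ χ⁻¹) := by rw [h1, map_mul]
    _ = Algebra.norm ℚ (algebraMap ℚ K (Fintype.card F : ℚ)) := by rw [h2]; simp
    _ = (Fintype.card F : ℚ) ^ (p - 1) := by rw [Algebra.norm_algebraMap, hfin]

end Cyclo


section Residue2

variable {R : Type*} [CommRing R] [IsDomain R] (𝔮 : Ideal R) [h𝔮 : 𝔮.IsMaximal]
  {p : ℕ} [hp : Fact p.Prime] [Fintype (R ⧸ 𝔮)]

noncomputable local instance : Field (R ⧸ 𝔮) := Ideal.Quotient.field 𝔮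

/-- `p ∣ #(R/𝔮) - 1` as soon as `R` has a primitive `p`-th root of unity and `p ∉ 𝔮`. -/
theorem dvd_card_sub_one {ζ : R} (hζ : IsPrimitiveRoot ζ p) (hp𝔮 : (p : R) ∉ 𝔮) :
    p ∣ Fintype.card (R ⧸ 𝔮) - 1 := by
  classical
  haveI : NeZero p := ⟨hp.out.ne_zero⟩
  have h1 : Nat.card (rootsOfUnity p R) = p := hζ.card_rootsOfUnity
  have hinj : Function.Injective
      ((rootsOfUnity p (R ⧸ 𝔮)).subtype.comp (red (p := p) 𝔮)) :=
    (Subgroup.subtype_injective _).comp (red_injective 𝔮 hp𝔮)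
  have h2 := Subgroup.card_dvd_of_injective _ hinj
  rwa [h1, Nat.card_eq_fintype_card, Fintype.card_units] at h2

end Residue2


section Packaged

variable {p : ℕ} [hp : Fact p.Prime] {K : Type*} [Field K] [NumberField K]
  [IsCyclotomicExtension {p} ℚ K]

/-- **Packaged Stickelberger element** for a maximal ideal `𝔮 ∌ p` of `𝓞 ℚ(ζ_p)`: an element `J`
(the Jacobi sum of the `p`-th power residue character) of absolute norm `N𝔮 ^ ((p-1)/2)` such that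
`σ_t J ∈ 𝔮` for all `0 < t < p/2`. -/
theorem exists_jacobi_element (hp2 : p ≠ 2) {ζ : K} (hζ : IsPrimitiveRoot ζ p)
    (𝔮 : Ideal (𝓞 K)) [h𝔮 : 𝔮.IsMaximal] (hp𝔮 : (p : 𝓞 K) ∉ 𝔮) :
    ∃ J : 𝓞 K, Ideal.absNorm (Ideal.span {J}) = Ideal.absNorm 𝔮 ^ ((p - 1) / 2) ∧
      ∀ (σ : K ≃ₐ[ℚ] K) (t : ℕ), 0 < t → 2 * t < p → σ ζ = ζ ^ t →
        galRestrict ℤ ℚ K (𝓞 K) σ J ∈ 𝔮 := by
  classical
  haveI : NeZero p := ⟨hp.out.ne_zero⟩
  have h0 : 𝔮 ≠ ⊥ := Ring.ne_bot_of_isMaximal_of_not_isField h𝔮 (RingOfIntegers.not_isField K)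
  haveI : Finite (𝓞 K ⧸ 𝔮) := Ideal.finiteQuotientOfFreeOfNeBot 𝔮 h0
  letI : Fintype (𝓞 K ⧸ 𝔮) := Fintype.ofFinite _
  letI : Field (𝓞 K ⧸ 𝔮) := Ideal.Quotient.field 𝔮
  have hζ' : IsPrimitiveRoot hζ.toInteger p := hζ.toInteger_isPrimitiveRoot
  have hdvd := dvd_card_sub_one 𝔮 hζ' hp𝔮
  set χ := resChar 𝔮 hζ' hp𝔮 hdvd with hχdef
  have hχord : orderOf χ = p := orderOf_resChar 𝔮 hζ' hp𝔮 hdvd
  have hχp : χ ^ p = 1 := resChar_pow_eq_one 𝔮 hζ' hp𝔮 hdvd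
  have hχ1 : χ ≠ 1 := resChar_ne_one 𝔮 hζ' hp𝔮 hdvd
  have hinj : Function.Injective (algebraMap (𝓞 K) K) := RingOfIntegers.coe_injective
  set χK : MulChar (𝓞 K ⧸ 𝔮) K := χ.ringHomComp (algebraMap (𝓞 K) K) with hχK
  have hχKp : χK ^ p = 1 := by
    rw [hχK, MulChar.ringHomComp_pow, hχp]
    ext a
    simp
  have hχK1 : χK ≠ 1 := (MulChar.ringHomComp_ne_one_iff hinj).mpr hχ1
  have hχKord : orderOf χK = p := orderOf_eq_prime hχKp hχK1
  have hJK : algebraMap (𝓞 K) K (jacobiSum χ χ) = jacobiSum χK χK :=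
    (jacobiSum_ringHomComp χ χ (algebraMap (𝓞 K) K)).symm
  refine ⟨jacobiSum χ χ, ?_, ?_⟩
  · -- the norm
    rw [Ideal.absNorm_span_singleton]
    have h1 := norm_jacobiSum_sq (K := K) hp2 χK hχKord
    rw [← hJK, ← RingOfIntegers.coe_eq_algebraMap, ← Algebra.coe_norm_int] at h1
    have h2 : (Algebra.norm ℤ (jacobiSum χ χ)) ^ 2 = (Fintype.card (𝓞 K ⧸ 𝔮) : ℤ) ^ (p - 1) := by
      exact_mod_cast h1
    have h3 : (Algebra.norm ℤ (jacobiSum χ χ)).natAbs ^ 2 = Fintype.card (𝓞 K ⧸ 𝔮) ^ (p - 1) := by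
      have := congrArg Int.natAbs h2
      rwa [Int.natAbs_pow, Int.natAbs_pow, Int.natAbs_natCast] at this
    have hodd : p - 1 = 2 * ((p - 1) / 2) := by
      rcases hp.out.eq_two_or_odd with h | h
      · exact absurd h hp2
      · omega
    have h4 : Ideal.absNorm 𝔮 = Fintype.card (𝓞 K ⧸ 𝔮) := by
      rw [Ideal.absNorm_apply, Submodule.cardQuot_apply, Nat.card_eq_fintype_card]
    rw [h4]
    rw [hodd, mul_comm, pow_mul] at h3
    exact Nat.pow_left_injective (by norm_num : 2 ≠ 0) h3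
  · intro σ t ht0 ht hσ
    have h1 : galRestrict ℤ ℚ K (𝓞 K) σ (jacobiSum χ χ) = jacobiSum (χ ^ t) (χ ^ t) := by
      apply hinj
      rw [algebraMap_galRestrict_apply, hJK]
      have h2 := jacobiSum_ringHomComp χK χK (σ : K →+* K)
      rw [ringHomComp_eq_pow hζ χK hχKp σ t hσ] at h2
      rw [show σ (jacobiSum χK χK) = (σ : K →+* K) (jacobiSum χK χK) from rfl, ← h2, hχK,
        MulChar.ringHomComp_pow, jacobiSum_ringHomComp]
    rw [h1]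
    exact jacobiSum_resChar_pow_mem 𝔮 hζ' hp𝔮 hdvd ht0 ht

end Packaged

end Fermat.Agent.Stick.JacobiCong
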