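/-
Program E (S14), E-S, (ES-1) FINAL EXPORT (helper1): `JacobiData p K Q ℓ` for a prime `Q` of
`𝓞 ℚ(ζ_p)` of prime norm `ℓ ≠ p`, from the Jacobi sum of the `p`-th power residue character.
-/
import Mathlib
import Fermat.Agent.Stick.Defs
import Fermat.Agent.Stick.JacobiCong

set_option autoImplicit false
set_option linter.unusedSectionVars false
set_option linter.style.haveILetI false

open Finset NumberField IsCyclotomicExtension.Rat

namespace Fermat.Agent.Stick.JacobiCore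

open Fermat.Agent.Stick Fermat.Agent.Stick.JacobiCong

variable (p : ℕ) [hp : Fact p.Prime] (K : Type*) [Field K] [NumberField K]
  [hK : IsCyclotomicExtension {p} ℚ K]

/-- `p ∉ Q` when `Q` has prime norm `ℓ ≠ p`. -/
lemma natCast_not_mem (Q : Ideal (𝓞 K)) [hQm : Q.IsMaximal] (ℓ : ℕ) (hℓ : ℓ.Prime) (hℓp : ℓ ≠ p)
    (hQ : Ideal.absNorm Q = ℓ) : (p : 𝓞 K) ∉ Q := by
  intro hpQ
  have hℓQ : (ℓ : 𝓞 K) ∈ Q := by
    rw [← hQ]
    exact Ideal.absNorm_mem Q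
  have hcop : Nat.Coprime p ℓ := (Nat.coprime_primes hp.out hℓ).mpr (Ne.symm hℓp)
  have h1 : ((p : ℤ).gcd (ℓ : ℤ) : ℤ) = 1 := by
    rw [Int.gcd_natCast_natCast, hcop]
    rfl
  have h2 := Int.gcd_eq_gcd_ab (p : ℤ) (ℓ : ℤ)
  rw [h1] at h2
  have h3 : (1 : 𝓞 K) = (p : 𝓞 K) * ((Int.gcdA p ℓ : ℤ) : 𝓞 K) + (ℓ : 𝓞 K) * ((Int.gcdB p ℓ : ℤ) : 𝓞 K) := by
    have := congrArg (fun z : ℤ => (z : 𝓞 K)) h2
    push_cast at this
    exact this
  apply hQm.ne_top
  rw [Ideal.eq_top_iff_one, h3]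
  exact Q.add_mem (Q.mul_mem_right _ hpQ) (Q.mul_mem_right _ hℓQ)

/-- **(ES-1)**: the Jacobi data of a prime `Q` of prime norm `ℓ ≠ p`. -/
theorem jacobiData (hp2 : p ≠ 2) (Q : Ideal (𝓞 K)) [hQm : Q.IsMaximal] (ℓ : ℕ) (hℓ : ℓ.Prime)
    (hℓp : ℓ ≠ p) (hQ : Ideal.absNorm Q = ℓ) : JacobiData p K Q ℓ := by
  classical
  haveI : NeZero p := ⟨hp.out.ne_zero⟩
  have hpQ : (p : 𝓞 K) ∉ Q := natCast_not_mem p K Q ℓ hℓ hℓp hQ
  have h0 : Q ≠ ⊥ := Ring.ne_bot_of_isMaximal_of_not_isField hQm (RingOfIntegers.not_isField K)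
  haveI : Finite (𝓞 K ⧸ Q) := Ideal.finiteQuotientOfFreeOfNeBot Q h0
  letI : Fintype (𝓞 K ⧸ Q) := Fintype.ofFinite _
  letI : Field (𝓞 K ⧸ Q) := Ideal.Quotient.field Q
  have hcard : Fintype.card (𝓞 K ⧸ Q) = ℓ := by
    rw [← hQ, Ideal.absNorm_apply, Submodule.cardQuot_apply, Nat.card_eq_fintype_card]
  have hζ := IsCyclotomicExtension.zeta_spec p ℚ K
  have hζ' : IsPrimitiveRoot hζ.toInteger p := hζ.toInteger_isPrimitiveRoot
  have hdvd := dvd_card_sub_one Q hζ' hpQ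
  set χ := resChar Q hζ' hpQ hdvd with hχdef
  have hχord : orderOf χ = p := orderOf_resChar Q hζ' hpQ hdvd
  have hχp : χ ^ p = 1 := resChar_pow_eq_one Q hζ' hpQ hdvd
  have hχ1 : χ ≠ 1 := resChar_ne_one Q hζ' hpQ hdvd
  have hinv : χ ^ (p - 1) = χ⁻¹ := by
    rw [eq_inv_iff_mul_eq_one, ← pow_succ, Nat.sub_add_cancel hp.out.pos, hχp]
  have hinj : Function.Injective (algebraMap (𝓞 K) K) := RingOfIntegers.coe_injective
  set χK : MulChar (𝓞 K ⧸ Q) K := χ.ringHomComp (algebraMap (𝓞 K) K) with hχK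
  have hχKp : χK ^ p = 1 := by
    rw [hχK, MulChar.ringHomComp_pow, hχp]
    ext a
    simp
  have hχK1 : χK ≠ 1 := (MulChar.ringHomComp_ne_one_iff hinj).mpr hχ1
  have hχKord : orderOf χK = p := orderOf_eq_prime hχKp hχK1
  have hχK2 : χK * χK ≠ 1 := by
    intro h
    rw [← pow_two, ← orderOf_dvd_iff_pow_eq_one, hχKord] at h
    exact hp2 ((Nat.prime_dvd_prime_iff_eq hp.out Nat.prime_two).mp h)
  -- the key identity: `σ • J(χ^a, χ^a) = J(χ^(a t), χ^(a t))`, `t = expo σ`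
  have hgal : ∀ (σ : Gal(K/ℚ)) (a : ℕ),
      σ • jacobiSum (χ ^ a) (χ ^ a) = jacobiSum (χ ^ (a * expo p K σ)) (χ ^ (a * expo p K σ)) := by
    intro σ a
    apply hinj
    show σ (algebraMap (𝓞 K) K (jacobiSum (χ ^ a) (χ ^ a))) = _
    have hσ : σ (IsCyclotomicExtension.zeta p ℚ K) =
        IsCyclotomicExtension.zeta p ℚ K ^ expo p K σ :=
      galEquivZMod_apply_of_pow_eq p K σ hζ.pow_eq_one
    have hpow : (χK ^ a) ^ p = 1 := by rw [← pow_mul, mul_comm, pow_mul, hχKp, one_pow]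
    have h2 := jacobiSum_ringHomComp (χK ^ a) (χK ^ a) (σ : K →+* K)
    rw [ringHomComp_eq_pow hζ (χK ^ a) hpow σ (expo p K σ) hσ] at h2
    rw [← jacobiSum_ringHomComp, ← jacobiSum_ringHomComp, ← MulChar.ringHomComp_pow,
      ← MulChar.ringHomComp_pow, ← hχK, pow_mul]
    exact h2.symm
  refine ⟨jacobiSum χ χ, jacobiSum χ⁻¹ χ⁻¹, ?_, ?_, ?_⟩
  · -- `J * J' = ℓ`
    apply hinj
    rw [map_mul, ← jacobiSum_ringHomComp, ← jacobiSum_ringHomComp, ← MulChar.ringHomComp_inv,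
      ← hχK, map_natCast, ← hcard]
    apply jacobiSum_mul_jacobiSum_inv _ hχK1 hχK1 hχK2
    rw [ringChar.eq_zero]
    exact (CharP.ringChar_ne_zero_of_finite (𝓞 K ⧸ Q)).symm
  · intro σ hσ
    have h1 := hgal σ 1
    rw [pow_one, one_mul] at h1
    rw [h1]
    have ht0 : 0 < expo p K σ := by
      unfold expo
      exact ZMod.val_pos.mpr (Units.ne_zero _)
    exact jacobiSum_resChar_pow_mem Q hζ' hpQ hdvd ht0 hσ
  · intro σ hσ
    have h1 := hgal σ (p - 1)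
    rw [hinv] at h1
    rw [h1]
    -- reduce the exponent `(p - 1) * t` modulo `p` to `p - t`
    have htp : expo p K σ < p := by
      unfold expo
      exact ZMod.val_lt _
    have hexp : χ ^ ((p - 1) * expo p K σ) = χ ^ (p - expo p K σ) := by
      have h2 : (p - 1) * expo p K σ = (p - expo p K σ) + p * (expo p K σ - 1) := by
        have ht1 : 1 ≤ expo p K σ := by omega
        obtain ⟨s, hs⟩ : ∃ s, expo p K σ = s + 1 := ⟨expo p K σ - 1, by omega⟩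
        obtain ⟨r, hr⟩ : ∃ r, p = r + 1 := ⟨p - 1, by have := hp.out.pos; omega⟩
        have hsr : s ≤ r := by omega
        obtain ⟨d, hd⟩ : ∃ d, r = s + d := ⟨r - s, by omega⟩
        rw [hs, hr, hd]
        simp only [Nat.add_sub_cancel]
        have : s + d + 1 - (s + 1) = d := by omega
        rw [this]
        ring
      rw [h2, pow_add, pow_mul, hχp, one_pow, mul_one]
    rw [hexp]
    exact jacobiSum_resChar_pow_mem Q hζ' hpQ hdvd (by omega) (by omega)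

end Fermat.Agent.Stick.JacobiCore
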