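/-
Program E (S14), piece E-S (1b) (helper27): the `p`-th power residue character modulo a prime `q`
with values in the base ring.

`R` a domain containing a primitive `p`-th root of unity `ζ`, `q` a maximal ideal with finite
residue field `F = R ⧸ q` not containing `p`.  Then `ζ mod q` is still primitive, `p ∣ #F - 1`,
and there is a multiplicative character `χ : MulChar F R` of order `p` with
`χ x ≡ x ^ ((#F - 1) / p) mod q`.
-/
import Mathlib

set_option autoImplicit false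
set_option linter.style.haveILetI false

open Polynomial

namespace Fermat.Agent.Stick.ResidueChar

section General

variable {R : Type*} [CommRing R] [IsDomain R] (q : Ideal R) [hq : q.IsMaximal]
  {p : ℕ} [hp : Fact p.Prime]

/-- In a domain, `1 - μ` divides `p` for every primitive `p`-th root of unity `μ`. -/
theorem one_sub_dvd_prime {μ : R} (hμ : IsPrimitiveRoot μ p) : (1 - μ) ∣ (p : R) := by
  have h1 : eval 1 (cyclotomic p R) = (p : R) := eval_one_cyclotomic_prime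
  rw [cyclotomic_eq_prod_X_sub_primitiveRoots hμ, eval_prod] at h1
  rw [← h1]
  have hmem : μ ∈ primitiveRoots p R := (mem_primitiveRoots hp.out.pos).mpr hμ
  have := Finset.dvd_prod_of_mem (fun ν : R => eval 1 (X - C ν)) hmem
  simpa using this

omit hq in
/-- A primitive `p`-th root of unity is not `≡ 1` modulo an ideal not containing `p`. -/
theorem mk_ne_one {μ : R} (hμ : IsPrimitiveRoot μ p) (hpq : (p : R) ∉ q) :
    Ideal.Quotient.mk q μ ≠ 1 := by
  intro h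
  apply hpq
  have h1 : (1 - μ) ∈ q := by
    rw [← Ideal.Quotient.eq_zero_iff_mem, map_sub, map_one, h, sub_self]
  obtain ⟨c, hc⟩ := one_sub_dvd_prime hμ
  rw [hc]
  exact q.mul_mem_right c h1

omit hq in
/-- `ζ mod q` is a primitive `p`-th root of unity. -/
theorem isPrimitiveRoot_mk {ζ : R} (hζ : IsPrimitiveRoot ζ p) (hpq : (p : R) ∉ q) :
    IsPrimitiveRoot (Ideal.Quotient.mk q ζ) p := by
  have h1 : (Ideal.Quotient.mk q ζ) ^ p = 1 := by rw [← map_pow, hζ.pow_eq_one, map_one]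
  have h2 := orderOf_eq_prime h1 (mk_ne_one q hζ hpq)
  rw [← h2]
  exact IsPrimitiveRoot.orderOf _

section Finite

variable [Finite (R ⧸ q)]

/-- The residue field. -/
local notation "F" => R ⧸ q

include hq in
/-- `p ∣ #F - 1`. -/
theorem dvd_card_sub_one {ζ : R} (hζ : IsPrimitiveRoot ζ p) (hpq : (p : R) ∉ q) :
    p ∣ Nat.card (R ⧸ q) - 1 := by
  letI := Ideal.Quotient.field q
  haveI : Fintype (R ⧸ q) := Fintype.ofFinite _
  have hprim := isPrimitiveRoot_mk q hζ hpq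
  have h0 : Ideal.Quotient.mk q ζ ≠ 0 := hprim.ne_zero hp.out.ne_zero
  have h1 : (Ideal.Quotient.mk q ζ) ^ (Fintype.card (R ⧸ q) - 1) = 1 :=
    FiniteField.pow_card_sub_one_eq_one _ h0
  rw [Nat.card_eq_fintype_card]
  exact hprim.dvd_of_pow_eq_one _ h1

/-- The exponent `m = (#F - 1) / p`. -/
noncomputable def expM (p : ℕ) : ℕ := (Nat.card (R ⧸ q) - 1) / p

include hq in
theorem expM_mul {ζ : R} (hζ : IsPrimitiveRoot ζ p) (hpq : (p : R) ∉ q) :
    expM q p * p = Nat.card (R ⧸ q) - 1 :=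
  Nat.div_mul_cancel (dvd_card_sub_one q hζ hpq)

omit [IsDomain R] in
theorem card_pos : 1 < Nat.card (R ⧸ q) := Finite.one_lt_card

include hq in
theorem expM_pos {ζ : R} (hζ : IsPrimitiveRoot ζ p) (hpq : (p : R) ∉ q) : 0 < expM q p := by
  have h := expM_mul q hζ hpq
  have h2 := card_pos q
  rcases Nat.eq_zero_or_pos (expM q p) with h0 | h0
  · rw [h0, zero_mul] at h
    omega
  · exact h0

/-- The power map `x ↦ x ^ m` on units of the residue field, with values in the `p`-th roots of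
unity. -/
noncomputable def powHom {ζ : R} (hζ : IsPrimitiveRoot ζ p) (hpq : (p : R) ∉ q) :
    (R ⧸ q)ˣ →* rootsOfUnity p (R ⧸ q) :=
  (powMonoidHom (expM q p)).codRestrict (rootsOfUnity p (R ⧸ q)) (fun x => by
    letI := Ideal.Quotient.field q
    haveI : Fintype (R ⧸ q) := Fintype.ofFinite _
    rw [mem_rootsOfUnity, powMonoidHom_apply, ← pow_mul, expM_mul q hζ hpq,
      Nat.card_eq_fintype_card]
    ext
    rw [Units.val_pow_eq_pow_val, Units.val_one]
    exact FiniteField.pow_card_sub_one_eq_one _ x.ne_zero)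

/-- Reduction of `p`-th roots of unity modulo `q`. -/
noncomputable def red (p : ℕ) : rootsOfUnity p R →* rootsOfUnity p (R ⧸ q) :=
  restrictRootsOfUnity (Ideal.Quotient.mk q) p

omit [Finite (R ⧸ q)] hq in
theorem red_injective (hpq : (p : R) ∉ q) : Function.Injective (red q p) := by
  rw [injective_iff_map_eq_one]
  intro u hu
  by_contra hne
  have hup : (u : Rˣ) ^ p = 1 := (mem_rootsOfUnity p _).mp u.2
  have hu1 : ((u : Rˣ) : R) ≠ 1 := by
    intro h
    apply hne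
    ext
    exact h
  have hup' : ((u : Rˣ) : R) ^ p = 1 := by
    rw [← Units.val_pow_eq_pow_val, hup, Units.val_one]
  have hord := orderOf_eq_prime hup' hu1
  have hprim : IsPrimitiveRoot ((u : Rˣ) : R) p := IsPrimitiveRoot.iff_orderOf.mpr hord
  apply mk_ne_one q hprim hpq
  have := congrArg (fun v : rootsOfUnity p (R ⧸ q) => ((v : (R ⧸ q)ˣ) : R ⧸ q)) hu
  simpa [red] using this

omit [Finite (R ⧸ q)] in
include hq in
theorem red_bijective {ζ : R} (hζ : IsPrimitiveRoot ζ p) (hpq : (p : R) ∉ q) :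
    Function.Bijective (red q p) := by
  haveI : NeZero p := ⟨hp.out.ne_zero⟩
  have h1 : Nat.card (rootsOfUnity p R) = p := hζ.card_rootsOfUnity
  have h2 : Nat.card (rootsOfUnity p (R ⧸ q)) = p :=
    (isPrimitiveRoot_mk q hζ hpq).card_rootsOfUnity
  haveI : Finite (rootsOfUnity p R) := Nat.finite_of_card_ne_zero (by rw [h1]; exact hp.out.ne_zero)
  haveI : Finite (rootsOfUnity p (R ⧸ q)) :=
    Nat.finite_of_card_ne_zero (by rw [h2]; exact hp.out.ne_zero)
  exact (Nat.bijective_iff_injective_and_card _).mpr ⟨red_injective q hpq, by rw [h1, h2]⟩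

/-- The lift of `x ↦ x ^ m` to `p`-th roots of unity of `R`. -/
noncomputable def liftHom {ζ : R} (hζ : IsPrimitiveRoot ζ p) (hpq : (p : R) ∉ q) :
    (R ⧸ q)ˣ →* Rˣ :=
  ((rootsOfUnity p R).subtype.comp
    (MulEquiv.ofBijective (red q p) (red_bijective q hζ hpq)).symm.toMonoidHom).comp
    (powHom q hζ hpq)

theorem mk_liftHom {ζ : R} (hζ : IsPrimitiveRoot ζ p) (hpq : (p : R) ∉ q) (x : (R ⧸ q)ˣ) :
    Ideal.Quotient.mk q (liftHom q hζ hpq x : R) = (x : R ⧸ q) ^ expM q p := by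
  have h1 : red q p ((MulEquiv.ofBijective (red q p) (red_bijective q hζ hpq)).symm
      (powHom q hζ hpq x)) = powHom q hζ hpq x :=
    (MulEquiv.ofBijective (red q p) (red_bijective q hζ hpq)).apply_symm_apply _
  have h2 := congrArg (fun v : rootsOfUnity p (R ⧸ q) => ((v : (R ⧸ q)ˣ) : R ⧸ q)) h1
  have h3 : ((powHom q hζ hpq x : (R ⧸ q)ˣ) : R ⧸ q) = (x : R ⧸ q) ^ expM q p := by
    show (((x : (R ⧸ q)ˣ) ^ expM q p : (R ⧸ q)ˣ) : R ⧸ q) = _
    rw [Units.val_pow_eq_pow_val]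
  rw [← h3]
  exact h2

theorem liftHom_pow {ζ : R} (hζ : IsPrimitiveRoot ζ p) (hpq : (p : R) ∉ q) (x : (R ⧸ q)ˣ) :
    (liftHom q hζ hpq x) ^ p = 1 := by
  set e := MulEquiv.ofBijective (red q p) (red_bijective q hζ hpq) with he
  exact (mem_rootsOfUnity p _).mp (e.symm (powHom q hζ hpq x)).2

/-- **The `p`-th power residue character** modulo `q` with values in `R`. -/
noncomputable def resChar {ζ : R} (hζ : IsPrimitiveRoot ζ p) (hpq : (p : R) ∉ q) :
    MulChar (R ⧸ q) R :=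
  MulChar.ofUnitHom (liftHom q hζ hpq)

section Props

variable {ζ : R} (hζ : IsPrimitiveRoot ζ p) (hpq : (p : R) ∉ q)

theorem resChar_coe (x : (R ⧸ q)ˣ) :
    resChar q hζ hpq (x : R ⧸ q) = (liftHom q hζ hpq x : R) :=
  MulChar.ofUnitHom_coe _ _

/-- `χ x ≡ x ^ m mod q`. -/
theorem mk_resChar (x : R ⧸ q) :
    Ideal.Quotient.mk q (resChar q hζ hpq x) = x ^ expM q p := by
  letI := Ideal.Quotient.field q
  by_cases hx : x = 0
  · subst hx
    rw [MulChar.map_zero, map_zero, zero_pow (expM_pos q hζ hpq).ne']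
  · obtain ⟨u, rfl⟩ := isUnit_iff_ne_zero.mpr hx
    rw [resChar_coe, mk_liftHom]

/-- the values of `χ` at nonzero arguments are `p`-th roots of unity. -/
theorem resChar_apply_pow (x : R ⧸ q) (hx : x ≠ 0) : (resChar q hζ hpq x) ^ p = 1 := by
  letI := Ideal.Quotient.field q
  obtain ⟨u, rfl⟩ := isUnit_iff_ne_zero.mpr hx
  rw [resChar_coe, ← Units.val_pow_eq_pow_val, liftHom_pow, Units.val_one]

theorem resChar_pow : (resChar q hζ hpq) ^ p = 1 := by
  ext u
  letI := Ideal.Quotient.field q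
  rw [MulChar.pow_apply_coe, MulChar.one_apply_coe]
  exact resChar_apply_pow q hζ hpq _ u.ne_zero

omit [IsDomain R] in
/-- `x ^ k ≠ 1` for a generator `x` of `Fˣ` if `0 < k < #F - 1`. -/
theorem exists_pow_ne_one (k : ℕ) (hk0 : 0 < k) (hk : k < Nat.card (R ⧸ q) - 1) :
    ∃ x : (R ⧸ q)ˣ, ((x : R ⧸ q)) ^ k ≠ 1 := by
  letI := Ideal.Quotient.field q
  obtain ⟨g, hg⟩ := IsCyclic.exists_generator (α := (R ⧸ q)ˣ)
  have hord : orderOf g = Nat.card (R ⧸ q) - 1 := by
    rw [orderOf_eq_card_of_forall_mem_zpowers hg, Nat.card_units]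
  refine ⟨g, fun h => ?_⟩
  have h' : g ^ k = 1 := by
    ext
    rw [Units.val_pow_eq_pow_val, h, Units.val_one]
  have := Nat.le_of_dvd hk0 (orderOf_dvd_of_pow_eq_one h')
  omega

theorem resChar_pow_ne_one_of_lt (k : ℕ) (hk0 : 0 < k) (hk : k < p) :
    (resChar q hζ hpq) ^ k ≠ 1 := by
  have hm := expM_mul q hζ hpq
  have hm0 := expM_pos q hζ hpq
  obtain ⟨x, hx⟩ := exists_pow_ne_one q (expM q p * k) (Nat.mul_pos hm0 hk0)
    (by rw [← hm]; exact Nat.mul_lt_mul_of_pos_left hk hm0)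
  intro h
  apply hx
  have h1 : ((resChar q hζ hpq) ^ k) (x : R ⧸ q) = 1 := by rw [h, MulChar.one_apply_coe]
  rw [MulChar.pow_apply_coe] at h1
  have h2 := congrArg (Ideal.Quotient.mk q) h1
  rw [map_pow, mk_resChar, map_one, ← pow_mul] at h2
  exact h2

theorem resChar_ne_one : resChar q hζ hpq ≠ 1 := by
  have := resChar_pow_ne_one_of_lt q hζ hpq 1 one_pos hp.out.one_lt
  rwa [pow_one] at this

theorem orderOf_resChar : orderOf (resChar q hζ hpq) = p :=
  orderOf_eq_prime (resChar_pow q hζ hpq) (resChar_ne_one q hζ hpq)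

theorem resChar_pow_ne_one (k : ℕ) (hk : ¬ p ∣ k) : (resChar q hζ hpq) ^ k ≠ 1 := by
  intro h
  apply hk
  rw [← orderOf_resChar q hζ hpq]
  exact orderOf_dvd_of_pow_eq_one h

include hq hζ hpq in
/-- **Existence of the `p`-th power residue character** (general form). -/
theorem exists_char :
    ∃ χ : MulChar (R ⧸ q) R,
      (∀ x, Ideal.Quotient.mk q (χ x) = x ^ ((Nat.card (R ⧸ q) - 1) / p)) ∧
      (∀ x, x ≠ 0 → χ x ^ p = 1) ∧ χ ^ p = 1 ∧ χ ≠ 1 ∧ orderOf χ = p ∧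
      (∀ k : ℕ, ¬ p ∣ k → χ ^ k ≠ 1) :=
  ⟨resChar q hζ hpq, mk_resChar q hζ hpq, resChar_apply_pow q hζ hpq, resChar_pow q hζ hpq,
    resChar_ne_one q hζ hpq, orderOf_resChar q hζ hpq, resChar_pow_ne_one q hζ hpq⟩

end Props

end Finite

end General

/-! ### Specialisation to the ring of integers of `ℚ(ζ_p)` -/

section Cyclotomic

open NumberField

variable (p : ℕ) [hp : Fact p.Prime] (K : Type*) [Field K] [NumberField K]
  [hK : IsCyclotomicExtension {p} ℚ K]

/-- The primitive `p`-th root of unity of `𝓞 K`. -/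
noncomputable def zetaInt : 𝓞 K :=
  haveI : NeZero p := ⟨hp.out.ne_zero⟩
  (IsCyclotomicExtension.zeta_spec p ℚ K).toInteger

theorem zetaInt_isPrimitiveRoot : IsPrimitiveRoot (zetaInt p K) p := by
  haveI : NeZero p := ⟨hp.out.ne_zero⟩
  exact (IsCyclotomicExtension.zeta_spec p ℚ K).toInteger_isPrimitiveRoot

variable {p K}

omit hK in
/-- A prime of norm `ℓ ≠ p` does not contain `p`. -/
theorem natCast_notMem {Q : Ideal (𝓞 K)} [Q.IsMaximal] {ℓ : ℕ} (hℓ : ℓ.Prime) (hℓp : ℓ ≠ p)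
    (hQ : Ideal.absNorm Q = ℓ) : ((p : ℕ) : 𝓞 K) ∉ Q := by
  intro hmem
  have h1 : ((ℓ : ℕ) : 𝓞 K) ∈ Q := hQ ▸ Ideal.absNorm_mem Q
  have hcop : Nat.Coprime ℓ p := (Nat.coprime_primes hℓ hp.out).mpr hℓp
  have h2 : ((1 : ℤ) : 𝓞 K) ∈ Q := by
    have hb : (ℓ : ℤ) * Nat.gcdA ℓ p + (p : ℤ) * Nat.gcdB ℓ p = 1 := by
      have := Nat.gcd_eq_gcd_ab ℓ p
      rw [hcop.gcd_eq_one] at this
      rw [← this]
      simp
    rw [← hb]
    push_cast
    exact Q.add_mem (Q.mul_mem_right _ h1) (Q.mul_mem_right _ hmem)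
  rw [Int.cast_one] at h2
  exact (Ideal.IsPrime.ne_top inferInstance) ((Ideal.eq_top_iff_one Q).mpr h2)

theorem finite_quotient {Q : Ideal (𝓞 K)} {ℓ : ℕ} (hℓ : ℓ.Prime)
    (hQ : Ideal.absNorm Q = ℓ) : Finite (𝓞 K ⧸ Q) := by
  apply Nat.finite_of_card_ne_zero
  rw [← Submodule.cardQuot_apply, ← Ideal.absNorm_apply, hQ]
  exact hℓ.ne_zero

theorem card_quotient {Q : Ideal (𝓞 K)} {ℓ : ℕ} (hQ : Ideal.absNorm Q = ℓ) :
    Nat.card (𝓞 K ⧸ Q) = ℓ := by
  rw [← Submodule.cardQuot_apply, ← Ideal.absNorm_apply, hQ]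

variable (p K)

/-- **ES-1b**: for a prime `Q` of `𝓞 K`, `K = ℚ(ζ_p)`, of prime norm `ℓ ≠ p`: `p ∣ ℓ - 1` and there
is a character `χ` of `𝓞 K ⧸ Q` of order `p` with values in `𝓞 K` and
`χ x ≡ x ^ ((ℓ - 1) / p) mod Q`. -/
theorem exists_residueChar (Q : Ideal (𝓞 K)) [Q.IsMaximal] (ℓ : ℕ) (hℓ : ℓ.Prime) (hℓp : ℓ ≠ p)
    (hQ : Ideal.absNorm Q = ℓ) :
    p ∣ ℓ - 1 ∧ ∃ χ : MulChar (𝓞 K ⧸ Q) (𝓞 K),
      (∀ x, Ideal.Quotient.mk Q (χ x) = x ^ ((ℓ - 1) / p)) ∧
      (∀ x, x ≠ 0 → χ x ^ p = 1) ∧ χ ^ p = 1 ∧ χ ≠ 1 ∧ orderOf χ = p ∧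
      (∀ k : ℕ, ¬ p ∣ k → χ ^ k ≠ 1) := by
  haveI := finite_quotient hℓ hQ
  have hpq := natCast_notMem (p := p) hℓ hℓp hQ
  have hζ := zetaInt_isPrimitiveRoot p K
  have hcard := card_quotient hQ
  refine ⟨?_, ?_⟩
  · have := dvd_card_sub_one Q hζ hpq
    rwa [hcard] at this
  · have := exists_char Q hζ hpq
    rwa [hcard] at this

end Cyclotomic

end Fermat.Agent.Stick.ResidueChar
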