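/-
Program E (S14), piece E-S (helper5 lead; helper1 JacobiCong/JacobiCore, helper27 ResidueChar):
FINAL hypothesis-free exports of the Stickelberger piece.

`K = ℚ(ζ_p)`, `p` an odd prime, `Q` a prime of `𝓞 K` of prime norm `ℓ ≠ p`:
* `principal` : `∏_{σ : 2 * expo σ < p} σ⁻¹ • Q` is a principal ideal (generated by a Jacobi sum);
* `kills` : every map `φ` from ideals to a `ZMod p`-module, additive on products of nonzero ideals,
  zero on principal ideals and equivariant for the inverse cyclotomic character, satisfies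
  `φ Q = 0`.
-/
import Fermat.Agent.Stick.JacobiCore
import Fermat.Agent.Stick.IdealArith

set_option autoImplicit false

open NumberField IsCyclotomicExtension.Rat Ideal
open scoped Pointwise

namespace Fermat.Agent.Stick.StickMain

open Fermat.Agent.Stick

variable (p : ℕ) [hp : Fact p.Prime] (K : Type*) [Field K] [NumberField K]
  [hK : IsCyclotomicExtension {p} ℚ K]

/-- **Stickelberger's relation** (Jacobi sum form). -/
theorem principal (hp2 : p ≠ 2) (Q : Ideal (𝓞 K)) [Q.IsMaximal] (ℓ : ℕ) (hℓ : ℓ.Prime)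
    (hℓp : ℓ ≠ p) (hQ : absNorm Q = ℓ) :
    ∃ J : 𝓞 K, Ideal.span {J} =
      ∏ σ ∈ (Finset.univ : Finset Gal(K/ℚ)).filter (fun σ => 2 * expo p K σ < p), (σ⁻¹ • Q) :=
  IdealArith.principal_of_jacobiData p K hp2 Q ℓ hℓ hℓp hQ
    (JacobiCore.jacobiData p K hp2 Q ℓ hℓ hℓp hQ)

/-- **Consumer form**: an `ω⁻¹`-equivariant "class group character" kills all degree-one primes. -/
theorem kills (hp2 : p ≠ 2) {M : Type*} [AddCommGroup M] [Module (ZMod p) M]
    (φ : Ideal (𝓞 K) → M)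
    (hmul : ∀ I J : Ideal (𝓞 K), I ≠ ⊥ → J ≠ ⊥ → φ (I * J) = φ I + φ J)
    (hprinc : ∀ x : 𝓞 K, x ≠ 0 → φ (Ideal.span {x}) = 0)
    (hequiv : ∀ (σ : Gal(K/ℚ)) (I : Ideal (𝓞 K)), I ≠ ⊥ →
      φ (σ • I) = (((galEquivZMod p K σ)⁻¹ : (ZMod p)ˣ) : ZMod p) • φ I)
    (Q : Ideal (𝓞 K)) [Q.IsMaximal] (ℓ : ℕ) (hℓ : ℓ.Prime) (hℓp : ℓ ≠ p)
    (hQ : absNorm Q = ℓ) : φ Q = 0 :=
  IdealArith.stick_kills p K hp2 φ hmul hprinc hequiv Q ℓ hℓ hℓp hQ
    (JacobiCore.jacobiData p K hp2 Q ℓ hℓ hℓp hQ)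

end Fermat.Agent.Stick.StickMain
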